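import Fermat.Agent.LT.H129.HeckeExists
import Fermat.Agent.LT.T7.H534.SpecDownSpec

/-!
# Row LT, tower T7, node T7.L2.3 `SpecDownC` -- the leaf SD.2 `IwSysC` (helper701)

OFF-MAIN.  `iwSysC701 : SD534.IwSysC K` VERBATIM (cut of helper534@756e78a11, `SpecDownSpec.lean`
sha256 3f1c4f48) and UNCONDITIONAL: at every finite place there are an Iwahori coset system
(`T7.IsIwCosetSystem`: the `q` matrices `[[ϖ, r], [0, 1]]`, `r` a system of representatives of
`𝒪 / v`) and a scalar uniformiser.  Local toolkit: `LT/H129/*` (helper129, byte-identical copies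
from origin/helper54).

Reusable: `inIwahori_locFin701`, `exists_iwCosetSystem701`.
-/

set_option autoImplicit false
set_option linter.style.haveILetI false
set_option linter.unusedSectionVars false

open IsDedekindDomain NumberField IsDedekindDomain.HeightOneSpectrum
open Fermat.Agent.LT.H556.A0

noncomputable section

namespace Fermat.Agent.LT.T7.H701

open Fermat.Agent.LT.H129 Fermat.Agent.LT.T7

variable {K : Type} [Field K] [NumberField K] (v : HeightOneSpectrum (𝓞 K))

/-- A local element with integral matrix, integral inverse and lower left entry in the maximal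
ideal lies in the Iwahori subgroup. -/
theorem inIwahori_locFin701 (x : GL (Fin 2) (v.adicCompletion K))
    (hx : IsInt129 (v.adicCompletionIntegers K) x)
    (hx' : IsInt129 (v.adicCompletionIntegers K) x⁻¹)
    (h10 : Valued.v ((x : Matrix (Fin 2) (Fin 2) (v.adicCompletion K)) 1 0) < 1) :
    Fermat.Agent.LT.T5.InIwahori v (locFin129 v x) := by
  refine ⟨?_, ?_, ?_⟩
  · rw [← isInt129_finCompHom_iff, finCompHom129_locFin129]
    exact hx
  · rw [← isInt129_finCompHom_iff, map_inv, finCompHom129_locFin129]
    exact hx'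
  · rw [finComp_locFin129]
    exact h10

/-- The identity lies in the Iwahori subgroup. -/
theorem inIwahori_one701 : Fermat.Agent.LT.T5.InIwahori v (1 : G K) := by
  have h := inIwahori_locFin701 v (1 : GL (Fin 2) (v.adicCompletion K))
    (isInt129_one _) (by rw [inv_one]; exact isInt129_one _) (by simp)
  rwa [map_one] at h

/-- The upper unipotent elements with integral entry lie in the Iwahori subgroup. -/
theorem inIwahori_upper701 {r : v.adicCompletion K} (hr : r ∈ v.adicCompletionIntegers K) :
    Fermat.Agent.LT.T5.InIwahori v (locFin129 v (upperU129 r)) := by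
  have h1 : (1 : v.adicCompletion K) ∈ v.adicCompletionIntegers K :=
    (v.adicCompletionIntegers K).one_mem
  have h0 : (0 : v.adicCompletion K) ∈ v.adicCompletionIntegers K :=
    (v.adicCompletionIntegers K).zero_mem
  refine inIwahori_locFin701 v _ ?_ ?_ ?_
  · exact isInt129_mkGL _ h1 hr h0 h1
  · rw [upperU129_inv]
    exact isInt129_mkGL _ h1 ((v.adicCompletionIntegers K).neg_mem _ hr) h0 h1
  · simp [upperU129]

/-- The standard representatives of `I diag(ϖ, 1) I / I`. -/
def stdIw701 (π : v.adicCompletion K) (hπ : π ≠ 0) (c : 𝓞 K ⧸ v.asIdeal) : G K :=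
  stdHecke129 v π hπ (some c)

theorem stdIw701_coset {π : v.adicCompletion K} (hπ : Valued.v π = WithZero.exp (-1 : ℤ))
    (c : 𝓞 K ⧸ v.asIdeal) :
    Fermat.Agent.LT.T5.InIwahoriCoset v 1 (stdIw701 v π (unif_ne_zero129 v hπ) c) := by
  have hπ0 := unif_ne_zero129 v hπ
  refine ⟨locFin129 v (upperU129 (rep129 v c)),
    1, locFin129 v (mkGL129 π 0 0 1 (by simpa using hπ0)), π,
    inIwahori_upper701 v (rep129_mem v c), inIwahori_one701 v, ?_, ?_, ?_⟩
  · rw [hπ]
    norm_num
  · rw [finComp_locFin129, coe_mkGL129]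
  · rw [mul_one, ← map_mul, stdIw701]
    simp only [stdHecke129]
    rw [finComp_locFin129, finComp_locFin129]
    simp only [upperU129, coe_mkGL129, Matrix.GeneralLinearGroup.coe_mul]
    ext i j
    fin_cases i <;> fin_cases j <;> simp [Matrix.mul_apply, Fin.sum_univ_two]

/-- **Iwahori coset systems exist.** -/
theorem exists_iwCosetSystem701 : ∃ H : Finset (G K), IsIwCosetSystem v H := by
  classical
  obtain ⟨π, hπ⟩ := exists_unif129 v
  have hπ0 := unif_ne_zero129 v hπ
  haveI : Finite (𝓞 K ⧸ v.asIdeal) := by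
    apply Nat.finite_of_card_ne_zero
    rw [← Submodule.cardQuot_apply, ← Ideal.absNorm_apply]
    exact ne_of_gt (lt_trans Nat.zero_lt_one (NumberField.HeightOneSpectrum.one_lt_absNorm v))
  letI : Fintype (𝓞 K ⧸ v.asIdeal) := Fintype.ofFinite _
  have hnot : ∀ c c' : 𝓞 K ⧸ v.asIdeal, c ≠ c' →
      ¬ IsIntegralAt v ((stdIw701 v π hπ0 c)⁻¹ * stdIw701 v π hπ0 c') := by
    intro c c' hcc
    exact stdHecke129_not_int v hπ (fun e => hcc (Option.some.inj e))
  have hinj : Function.Injective (stdIw701 v π hπ0) := by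
    intro a b hab
    by_contra hne
    apply hnot a b hne
    rw [hab, inv_mul_cancel]
    exact (inIwahori_one701 v).1
  refine ⟨Finset.univ.image (stdIw701 v π hπ0), ?_, ?_, ?_⟩
  · rw [Finset.card_image_of_injective _ hinj, Finset.card_univ,
      Ideal.absNorm_apply, Submodule.cardQuot_apply, Nat.card_eq_fintype_card]
  · intro h hh
    obtain ⟨c, -, rfl⟩ := Finset.mem_image.mp hh
    exact ⟨(stdHecke129_props v hπ (some c)).1, stdIw701_coset v hπ c⟩
  · intro h hh h' hh' hne
    obtain ⟨c, -, rfl⟩ := Finset.mem_image.mp hh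
    obtain ⟨c', -, rfl⟩ := Finset.mem_image.mp hh'
    intro hI
    exact hnot c c' (fun e => hne (by rw [e])) hI.1

/-- **SD.2 `IwSysC`.** -/
theorem iwSysC701 (K : Type) [Field K] [NumberField K] : SD534.IwSysC K :=
  fun u => ⟨exists_iwCosetSystem701 u, exists_scalarUniformizer129 u⟩

end Fermat.Agent.LT.T7.H701

end
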